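import Fermat.Agent.PointwiseErgodic.Khinchin
import Mathlib.Analysis.PSeries

/-!
# The theorem of Borel and Bernstein

Inside a cylinder of rank `M` the points whose next digit is at least `t` have a share at least
`1 / (4 (t + 1))`, so the points avoiding all these large digits shrink like a divergent product;
the Gauss measure of the points whose digit is at least `t` is at most `1 / (t log 2)`.
-/

set_option autoImplicit false

noncomputable section

open MeasureTheory Filter Topology Set Real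
open FA.PeriodicFractions FA.PointwiseErgodic

namespace FA.BorelBernstein

/-- The points whose first digit is at least `t`. -/
def big (t : ℝ) : Set ℝ := {z | t ≤ (⌊z⁻¹⌋ : ℝ)}

theorem measurableSet_big (t : ℝ) : MeasurableSet (big t) :=
  (measurable_from_top.comp (Int.measurable_floor.comp measurable_inv))
    (measurableSet_Ici (a := t))

theorem gaussMeasure_big_le {t : ℝ} (ht : 1 ≤ t) :
    gaussMeasure (big t) ≤ ENNReal.ofReal (1 / (t * log 2)) := by
  have h : big t ≤ᵐ[gaussMeasure] Icc 0 (1 / t) := by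
    filter_upwards [ae_gaussMeasure_mem] with z hz (hzt : t ≤ (⌊z⁻¹⌋ : ℝ))
    refine ⟨hz.1.le, ?_⟩
    rw [one_div, le_inv_comm₀ hz.1 (by linarith)]
    exact hzt.trans (Int.floor_le _)
  refine (measure_mono_ae h).trans ?_
  rw [gaussMeasure_Icc le_rfl (by positivity) ((div_le_one (by linarith)).2 ht)]
  refine ENNReal.ofReal_le_ofReal ?_
  rw [add_zero, log_one, sub_zero, ← div_div]
  refine div_le_div_of_nonneg_right ?_ (log_pos one_lt_two).le
  linarith [log_le_sub_one_of_pos (show 0 < 1 + 1 / t by positivity)]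

theorem image_branch_iterate {x : ℝ} (hx : x ∈ unitIrr) (n : ℕ) (A : Set ℝ) :
    branch x n '' (A ∩ unitIrr) = gaussCylinder x n ∩ gaussMap^[n] ⁻¹' A := by
  ext y
  constructor
  · rintro ⟨t, ⟨htA, ht⟩, rfl⟩
    obtain ⟨h1, h2⟩ := branch_mem hx n ht
    exact ⟨h1, (h2.symm ▸ htA : gaussMap^[n] (branch x n t) ∈ A)⟩
  · rintro ⟨hy, hyA⟩
    exact ⟨gaussMap^[n] y, ⟨hyA, iterate_mem_unitIrr hy.1 n⟩, branch_iterate hy⟩

/-- A set takes at least a quarter of its share of every cylinder. -/
theorem quarter_le_cylinder {x : ℝ} (hx : x ∈ unitIrr) (n : ℕ) {A : Set ℝ}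
    (hAm : MeasurableSet A) :
    ENNReal.ofReal (1 / 4) * volume (A ∩ unitIrr) * volume (gaussCylinder x n) ≤
      volume (gaussCylinder x n ∩ gaussMap^[n] ⁻¹' A) := by
  obtain ⟨q, hq⟩ : ∃ q : ℝ, q = ((contin x (n + 1)).2.2.1 : ℝ) := ⟨_, rfl⟩
  obtain ⟨q', hq'⟩ : ∃ q' : ℝ, q' = ((contin x (n + 1)).2.2.2 : ℝ) := ⟨_, rfl⟩
  obtain ⟨b0, b1, b2⟩ := den_bounds hx.2 n
  have h0 : 0 < q := by rw [hq]; exact_mod_cast b0
  have h1 : 0 ≤ q' := by rw [hq']; exact_mod_cast b1
  have h2 : q' ≤ q := by rw [hq, hq']; exact_mod_cast b2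
  have hd : ∀ t ∈ unitIrr, HasDerivWithinAt (branch x n) (deriv (branch x n) t) unitIrr t ∧
      |deriv (branch x n) t| = 1 / (q + q' * t) ^ 2 := fun t ht => by
    obtain ⟨d, hd, hd'⟩ := hasDerivAt_branch hx.2 n ht.1.1.le
    rw [hd.deriv, hq, hq']
    exact ⟨hd.hasDerivWithinAt, hd'⟩
  have vol : ∀ {B : Set ℝ}, MeasurableSet B → volume (gaussCylinder x n ∩ gaussMap^[n] ⁻¹' B) =
      ∫⁻ t in B ∩ unitIrr, ENNReal.ofReal (1 / (q + q' * t) ^ 2) := fun {B} hBm => by
    rw [← image_branch_iterate hx n, ← setLIntegral_one,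
      lintegral_image_eq_lintegral_abs_deriv_mul (hBm.inter measurableSet_unitIrr)
        (fun t ht => (hd t ht.2).1.mono inter_subset_right)
        (fun s hs t ht h => by
          rw [← (branch_mem hx n hs.2).2, h, (branch_mem hx n ht.2).2]) fun _ => 1]
    exact setLIntegral_congr_fun (hBm.inter measurableSet_unitIrr) fun t ht => by
      rw [mul_one, (hd t ht.2).2]
  have hup : volume (gaussCylinder x n) ≤ ENNReal.ofReal (1 / q ^ 2) := by
    rw [← Set.inter_univ (gaussCylinder x n), ← Set.preimage_univ (f := gaussMap^[n]),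
      vol MeasurableSet.univ, univ_inter]
    refine (setLIntegral_mono measurable_const fun t ht => ENNReal.ofReal_le_ofReal
      (one_div_le_one_div_of_le (pow_pos h0 2)
        (pow_le_pow_left₀ h0.le (by nlinarith [ht.1.1]) 2))).trans ?_
    rw [setLIntegral_const, measure_congr unitIrr_ae, Real.volume_Ioo, sub_zero,
      ENNReal.ofReal_one, mul_one]
  have hlo : ENNReal.ofReal (1 / (2 * q) ^ 2) * volume (A ∩ unitIrr) ≤
      volume (gaussCylinder x n ∩ gaussMap^[n] ⁻¹' A) := by
    rw [vol hAm, ← setLIntegral_const]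
    refine setLIntegral_mono' (hAm.inter measurableSet_unitIrr) fun t ht => ?_
    refine ENNReal.ofReal_le_ofReal (one_div_le_one_div_of_le
      (pow_pos (by nlinarith [ht.2.1.1]) 2) (pow_le_pow_left₀ (by nlinarith [ht.2.1.1]) ?_ 2))
    nlinarith [ht.2.1.1, ht.2.1.2]
  refine le_trans ?_ hlo
  rw [show (1 : ℝ) / (2 * q) ^ 2 = 1 / 4 * (1 / q ^ 2) by field_simp; ring,
    ENNReal.ofReal_mul (by norm_num), mul_right_comm]
  gcongr

/-- The points with no large digit at the ranks from `N` to `M`. -/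
def small (φ : ℕ → ℝ) (N M : ℕ) : Set ℝ :=
  {y | y ∈ unitIrr ∧ ∀ i, N ≤ i → i < M → ¬φ i ≤ (digit y (i + 1) : ℝ)}

theorem measurable_digit (j : ℕ) : Measurable fun y : ℝ => digit y j := by
  have hcq : Measurable fun y : ℝ => cq y j := by
    induction j with
    | zero => exact measurable_id
    | succ j ih => exact (measurable_fract.comp ih).inv
  exact Int.measurable_floor.comp hcq

theorem measurableSet_small (φ : ℕ → ℝ) (N M : ℕ) : MeasurableSet (small φ N M) := by
  have e : small φ N M = unitIrr ∩ ⋂ (i : ℕ) (_ : N ≤ i) (_ : i < M),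
      (fun y => (digit y (i + 1) : ℝ)) ⁻¹' (Ici (φ i))ᶜ := by
    ext y
    simp [small]
  rw [e]
  exact measurableSet_unitIrr.inter (MeasurableSet.iInter fun i => MeasurableSet.iInter fun _ =>
    MeasurableSet.iInter fun _ => (measurable_from_top.comp (measurable_digit (i + 1)))
      measurableSet_Ici.compl)

/-- The share of the points with a large digit at rank `M`. -/
theorem share_le_inter {φ : ℕ → ℝ} (N M : ℕ) (hM : 1 ≤ φ M) :
    ENNReal.ofReal (1 / (4 * (φ M + 1))) * volume (small φ N M) ≤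
      volume (small φ N M ∩ gaussMap^[M] ⁻¹' Ioc 0 (1 / (φ M + 1))) := by
  set A : Set ℝ := Ioc 0 (1 / (φ M + 1)) with hA
  set P := small φ N M with hP
  have hPm := measurableSet_small φ N M
  have hAm : MeasurableSet (gaussMap^[M] ⁻¹' A) :=
    (measurable_gaussMap.iterate M) measurableSet_Ioc
  set cyl : (Fin (M + 1) → ℤ) → Set ℝ := fun w => wordCylinder ⟨M, w⟩ with hcyl
  have hcover : P = ⋃ w, cyl w ∩ P := by
    refine Set.Subset.antisymm (fun y hy => Set.mem_iUnion.2
      ⟨fun j => digit y j, ⟨hy.1, fun j => rfl⟩, hy⟩) (iUnion_subset fun w => inter_subset_right)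
  have hdisj : Pairwise (Function.onFun Disjoint fun w => cyl w ∩ P) := fun w w' hne =>
    Set.disjoint_left.2 fun y hy hy' => hne (funext fun j => (hy.1.2 j).symm.trans (hy'.1.2 j))
  have hmc : ∀ w, MeasurableSet (cyl w ∩ P) := fun w => (measurableSet_wordCylinder _).inter hPm
  have hone : ∀ w, ENNReal.ofReal (1 / (4 * (φ M + 1))) * volume (cyl w ∩ P) ≤
      volume ((cyl w ∩ P) ∩ gaussMap^[M] ⁻¹' A) := fun w => by
    rcases (cyl w ∩ P).eq_empty_or_nonempty with h0 | ⟨x, hxc, hxP⟩
    · simp [h0]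
    have heq : cyl w = gaussCylinder x M := by
      ext y
      refine and_congr_right fun _ => ⟨fun h j hj => ?_, fun h j => ?_⟩
      · exact (h ⟨j, Nat.lt_succ_of_le hj⟩).trans (hxc.2 ⟨j, Nat.lt_succ_of_le hj⟩).symm
      · exact (h j (Nat.lt_succ_iff.1 j.2)).trans (hxc.2 j)
    have hin : cyl w ∩ P = gaussCylinder x M := by
      rw [heq]
      refine Set.inter_eq_left.2 fun y hy => ⟨hy.1, fun i hi hiM => ?_⟩
      rw [hy.2 (i + 1) hiM]
      exact hxP.2 i hi hiM
    rw [hin]
    refine le_trans ?_ (quarter_le_cylinder hxc.1 M measurableSet_Ioc)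
    refine mul_le_mul_left (le_of_eq ?_) _
    have hle : 1 / (φ M + 1) ≤ 1 := (div_le_one (by linarith)).2 (by linarith)
    have hsub : (A ∩ Ioo (0 : ℝ) 1 : Set ℝ) =ᵐ[volume] A := by
      rw [hA]
      have h1 : ∀ᵐ z : ℝ, z ≠ 1 := by simp [ae_iff]
      filter_upwards [h1] with z hz
      exact propext ⟨fun h => h.1, fun h => ⟨h, h.1, lt_of_le_of_ne (h.2.trans hle) hz⟩⟩
    rw [volume_inter_unitIrr, measure_congr hsub, hA, Real.volume_Ioc, sub_zero,
      ← ENNReal.ofReal_mul (by norm_num)]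
    congr 1
    field_simp
  calc ENNReal.ofReal (1 / (4 * (φ M + 1))) * volume P
      = ∑' w, ENNReal.ofReal (1 / (4 * (φ M + 1))) * volume (cyl w ∩ P) := by
        conv_lhs => rw [hcover, measure_iUnion hdisj hmc]
        exact ENNReal.tsum_mul_left.symm
    _ ≤ ∑' w, volume ((cyl w ∩ P) ∩ gaussMap^[M] ⁻¹' A) := ENNReal.tsum_le_tsum hone
    _ = volume (P ∩ gaussMap^[M] ⁻¹' A) := by
        rw [← measure_iUnion (fun w w' h => (hdisj h).mono inter_subset_left inter_subset_left)
          fun w => (hmc w).inter hAm, ← iUnion_inter, ← hcover]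

theorem volume_small_ne_top (φ : ℕ → ℝ) (N M : ℕ) : volume (small φ N M) ≠ ⊤ :=
  ne_top_of_le_ne_top (by simp [measure_congr unitIrr_ae] : volume unitIrr ≠ ⊤)
    (measure_mono fun _ hy => hy.1)

theorem small_succ_le {φ : ℕ → ℝ} {N M : ℕ} (hNM : N ≤ M) (hM : 1 ≤ φ M) :
    volume.real (small φ N (M + 1)) ≤
      (1 - 1 / (4 * (φ M + 1))) * volume.real (small φ N M) := by
  set A : Set ℝ := Ioc 0 (1 / (φ M + 1))
  have hdis : Disjoint (small φ N (M + 1)) (small φ N M ∩ gaussMap^[M] ⁻¹' A) := by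
    refine Set.disjoint_left.2 fun y hy hy' => hy.2 M hNM (Nat.lt_succ_self M) ?_
    rw [digit, cq_succ_eq hy.1]
    obtain ⟨hpos, hle⟩ := hy'.2
    rw [one_div, le_inv_comm₀ hpos (by linarith)] at hle
    linarith [Int.lt_floor_add_one (gaussMap^[M] y)⁻¹]
  have hsub : small φ N (M + 1) ∪ (small φ N M ∩ gaussMap^[M] ⁻¹' A) ⊆ small φ N M :=
    union_subset (fun y hy => ⟨hy.1, fun i hi hiM => hy.2 i hi (hiM.trans (Nat.lt_succ_self M))⟩)
      inter_subset_left
  have h1 := measureReal_mono hsub (volume_small_ne_top φ N M)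
  rw [measureReal_union hdis ((measurableSet_small φ N M).inter
    ((measurable_gaussMap.iterate M) measurableSet_Ioc)) (volume_small_ne_top φ N (M + 1))
    (ne_top_of_le_ne_top (volume_small_ne_top φ N M) (measure_mono inter_subset_left))] at h1
  have h2 := ENNReal.toReal_mono
    (ne_top_of_le_ne_top (volume_small_ne_top φ N M) (measure_mono inter_subset_left))
    (share_le_inter N M hM)
  rw [ENNReal.toReal_mul, ENNReal.toReal_ofReal (by positivity)] at h2
  simp only [← Measure.real.eq_def] at h2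
  linarith

theorem volume_iInter_small {φ : ℕ → ℝ} (h1 : ∀ i, 1 ≤ φ i) (hdiv : ¬Summable fun i => 1 / φ i)
    (N : ℕ) : volume (⋂ M, small φ N M) = 0 := by
  set c : ℕ → ℝ := fun i => 1 / (4 * (φ i + 1)) with hc
  have hc0 : ∀ i, 0 ≤ c i := fun i => by
    have := h1 i
    simp only [hc]
    positivity
  have hexp : ∀ j, volume.real (small φ N (N + j)) ≤
      exp (-∑ i ∈ Finset.range j, c (N + i)) * volume.real (small φ N N) := fun j => by
    induction j with
    | zero => simp
    | succ j ih =>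
      refine (small_succ_le (Nat.le_add_right N j) (h1 _)).trans ?_
      rw [Finset.sum_range_succ, neg_add, exp_add, mul_comm (exp _) (exp _), mul_assoc]
      refine mul_le_mul ?_ ih measureReal_nonneg (exp_pos _).le
      linarith [add_one_le_exp (-c (N + j))]
  have hcd : ¬Summable fun i => c (N + i) := fun hs => hdiv <| by
    simp only [add_comm N] at hs
    refine Summable.of_nonneg_of_le (fun i => by have := h1 i; positivity) (fun i => ?_)
      (((summable_nat_add_iff N).1 hs).mul_left 8)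
    simp only [hc]
    rw [mul_one_div, div_le_div_iff₀ (by linarith [h1 i]) (by linarith [h1 i])]
    linarith [h1 i]
  have hlim : Tendsto (fun j => exp (-∑ i ∈ Finset.range j, c (N + i)) *
      volume.real (small φ N N)) atTop (𝓝 0) := by
    have h := ((not_summable_iff_tendsto_nat_atTop_of_nonneg fun i => hc0 _).1 hcd)
    simpa using ((tendsto_exp_atBot.comp (tendsto_neg_atTop_atBot.comp h)).mul_const
      (volume.real (small φ N N)))
  have hle : volume.real (⋂ M, small φ N M) ≤ 0 := ge_of_tendsto' hlim fun j =>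
    (measureReal_mono (iInter_subset _ (N + j)) (volume_small_ne_top φ N _)).trans (hexp j)
  have htop : volume (⋂ M, small φ N M) ≠ ⊤ :=
    ne_top_of_le_ne_top (volume_small_ne_top φ N N) (measure_mono (iInter_subset _ N))
  exact (measureReal_eq_zero_iff htop).1 (le_antisymm hle measureReal_nonneg)

/-- **Borel–Bernstein**, divergence. -/
theorem ae_infinite_large_digits {φ : ℕ → ℝ} (h1 : ∀ i, 1 ≤ φ i)
    (hdiv : ¬Summable fun i => 1 / φ i) :
    ∀ᵐ x : ℝ, Irrational x ∧ {i | φ i ≤ (digit x (i + 1) : ℝ)}.Infinite := by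
  have hg : ∀ᵐ y ∂gaussMeasure, ∀ N, ∃ i, N ≤ i ∧ φ i ≤ (⌊(gaussMap^[i] y)⁻¹⌋ : ℝ) := by
    refine ae_all_iff.2 fun N => ?_
    refine gaussMeasure_absolutelyContinuous.ae_le ((ae_restrict_iff' measurableSet_Ioo).2 ?_)
    filter_upwards [countable_not_irrational.ae_notMem volume,
      measure_eq_zero_iff_ae_notMem.1 (volume_iInter_small h1 hdiv N)] with y hirr hy hy1
    by_contra hcon
    simp only [not_exists, not_and] at hcon
    refine hy (Set.mem_iInter.2 fun M => ⟨⟨hy1, not_not.1 hirr⟩, fun i hi _ => ?_⟩)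
    rw [digit, cq_succ_eq ⟨hy1, not_not.1 hirr⟩]
    exact hcon i hi
  filter_upwards [ae_real_of_gauss hg] with x ⟨hx, h⟩
  refine ⟨hx, Set.infinite_of_forall_exists_gt fun n => ?_⟩
  obtain ⟨i, hi, hle⟩ := h (n + 1)
  exact ⟨i, by rw [Set.mem_ofPred_eq, digit_eq_iterate hx]; exact hle, hi⟩

/-- **Borel–Bernstein**, convergence. -/
theorem ae_finite_large_digits {φ : ℕ → ℝ} (h1 : ∀ i, 1 ≤ φ i)
    (hs : Summable fun i => 1 / φ i) :
    ∀ᵐ x : ℝ, Irrational x ∧ {i | φ i ≤ (digit x (i + 1) : ℝ)}.Finite := by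
  have hμ : ∀ i, gaussMeasure (gaussMap^[i] ⁻¹' big (φ i)) ≤
      ENNReal.ofReal (1 / φ i * (1 / log 2)) := fun i => by
    rw [(measurePreserving_gaussMap.iterate i).measure_preimage
      (measurableSet_big _).nullMeasurableSet, one_div_mul_one_div]
    exact gaussMeasure_big_le (h1 i)
  have hsum : ∑' i, gaussMeasure (gaussMap^[i] ⁻¹' big (φ i)) ≠ ⊤ :=
    ne_top_of_le_ne_top (ENNReal.ofReal_tsum_of_nonneg (f := fun i => 1 / φ i * (1 / log 2))
      (fun i => by
        have := h1 i
        have := log_pos one_lt_two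
        positivity) (hs.mul_right (1 / log 2)) ▸ ENNReal.ofReal_ne_top) (ENNReal.tsum_le_tsum hμ)
  filter_upwards [ae_real_of_gauss (ae_eventually_notMem hsum)] with x ⟨hx, h⟩
  refine ⟨hx, ?_⟩
  obtain ⟨N, hN⟩ := eventually_atTop.1 h
  refine (Set.finite_Iio N).subset fun i hi => not_le.1 fun hc => hN i hc ?_
  rw [Set.mem_ofPred_eq, digit_eq_iterate hx] at hi
  exact hi

end FA.BorelBernstein
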